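import Mathlib
import Fermat.Agent.LT.H556.A0
import Fermat.Agent.LT.T5.Spec
import Fermat.Agent.LT.T6.Spec
import Fermat.Agent.LT.T6.SpecArch
import Fermat.Agent.LT.T6.Inf.Spec
import Fermat.Agent.LT.T7.Spec
import Fermat.Agent.LT.T7.Comparison
import Fermat.Agent.LT.T7.EK
import Fermat.Agent.LT.T7.Reg
import Fermat.Agent.LT.T7.EKM
import Fermat.Agent.LT.T7.Matching
import Fermat.Agent.LT.T7.Level2

/-!
# Row LT, tower T7, row 1920 (helper826 for the architect helper797): LEVEL 2 of the node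
# `TraceWordsQRegP` (`F = ℚ(√-3)` over `ℚ`) -- typed mirror of `T7/Level2.lean`

OFF-MAIN.  Definitions, frozen Props, PROVED assemblies.  No hole, nothing assumed.
ADDITIVE (new names only, all in the namespace `Fermat.Agent.LT.T7.L2Q`).
v1.1 = v1 (sha256 3acaa310) + APPENDIX (the equation lemmas of the definitions of this file are
realised HERE, as in `T7/Comparison.lean` v0.1); NO statement changed.  The stable forms
(mirror of `T7/Level2S.lean`) are in `LT/T7/H826/Level2QS.lean`.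
Template: `T7/Level2.lean` (helper797@819237e8b, sha256 15516646).  Vocabulary: A0,
`T5/Spec.lean` v4, `T6/SpecArch.lean` (003240b2), `T6/Inf/Spec.lean` v3 (29b32855),
`T7/Matching.lean`, `T7/EKM.lean` (4b09755e).

    traceWordsQRegP_of : SupplyQC P F → SpecUpQC F → SpecDownQC F → SpecIdQC F
                           → TraceWordsQRegP P F                      (target VERBATIM)
    specIdQC_of : (towers of T5: `(F, σ, 1)`, `(ℚ, id, 1)`, `(ℚ, id, weight one)`)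
                    → T6.NormClassC → T6.NormInjC → GeomQC F → SpecIdQC F

## Setting

`K = ℚ`, `K' = F` imaginary quadratic, `ℓ = 2`, `σ` = the conjugation of `F`.  The upstairs side
is the cyclic one with `ℓ = 2` (`F` is totally complex): same operators, same clauses
(OP-up, KILL-up, projection), same node (`SpecUpQC` = `SpecUpC` with the hypotheses of the
quadratic step).

## The changes downstairs (the real place of `ℚ` does not split)

* TWO `K_∞`-TYPES over `ℚ` (`QWt`): `w0` = the trivial type, `w1` = WEIGHT ONE in the convention of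
  QOut (`e (g k_θ) = e^{iθ} e g`, `k_θ = QOut.rotC θ`; this is the weight `-1` of `T6.wtChar`).
  `wtOne k = k₀₀ + i k₀₁` at the real place (`= e^{iθ}` on `rotC θ`); leaf `WtOneKTypeC`.
* TWO FAMILIES `f w0 g X k m` (trivial type), `f w1 g X k m` (weight one), each a product of two
  Eisenstein-killing test functions OF ITS TYPE, regular for `m ≥ m₀ g X`; THE SUM
  `f w0 + f w1` is matched with `φ' g X k m` (`T6.ArchMatchC`: the function matching a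
  bi-`U(2)`-invariant `φ_∞` is `f₀ + f₁`).
* `GeomQC` (leaf, variant of `GeomC`): matched + regular ⇒
  `geomSide(φ') = geomSide(f₀) + geomSide(f₁)`;
  `SpecIdQC`: `specSide(φ') = specSide_{w0}(f₀) + specSide_{w1}(f₁)`, PROVED from the three towers
  of T5 and `GeomQC` (`specIdQC_of`).
* OP-down PER TYPE, with the archimedean base change `s ↦ 2 s` of `T6.ArchMatchC` (b)
  (`IsBCDataQ`): downstairs the circle means of type `n` have the eigenvalue function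
  `2π · T6.sphRad n s (cosh t)`, upstairs `Ĉ.m w d = 4π · T6.sphC (2 s) (cosh d)`; the finite part
  is `IsBCEigQ`.
* REALISATION (inside `SpecDownQC`): an atom whose base change is spherical of parameter `0`
  has `s = 0` (`Inf.Sph0ParamC`, `Inf.SphValuesC`), so it is realised by a form as in
  `A0.IsSph0CuspFormFor` (type `w0`) or by a weight-one form with `Inf.MeanValueWtOne`, which is
  holomorphic (D3, `H670.D3.realise_wtOne`, closed): `A0.notion556.IsCusp ℚ`.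
* The finite set `S` of PRIMES of `ℚ` under `S'` is part of the data (first clause of the
  target).

## The nodes

* `SupplyQC P F` (geometric half): existence of an `L2QData` with `IsL2QData`.  NEEDS the
  Eisenstein-killing test functions over `ℚ` of the two types (T3 over `ℚ`, real place) and
  `T6.ArchMatchC`, `T6.ArchInjC`.
* `SpecUpQC F` (spectral half upstairs + non-vanishing): the cyclic node with `ℓ = 2`.
* `SpecDownQC F` (spectral half downstairs + realisation): for BOTH types.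
-/

set_option autoImplicit false

open AutomorphicForm IsDedekindDomain NumberField MeasureTheory
open scoped ComplexConjugate

noncomputable section

namespace Fermat.Agent.LT.T7.L2Q

open Fermat.Agent.LT.H556 Fermat.Agent.LT.H556.A0 Fermat.Agent.LT.H670

attribute [local instance] Fermat.Agent.LT.T5.instMeasurableSpaceG

/-! ## 1. The two `K_∞`-types over `ℚ` -/

/-- The two `K_∞`-types of the quadratic step: `w0` = trivial, `w1` = weight one. -/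
inductive QWt : Type
  | w0 : QWt
  | w1 : QWt

/-- The `K_∞`-type of WEIGHT ONE over `ℚ`, convention of QOut: on `SO(2)` at the real place
`k ↦ k₀₀ + i k₀₁`, so that `wtOne k = e^{iθ}` when the real component of `k` is
`QOut.rotC θ = !![cos θ, sin θ; -sin θ, cos θ]`. -/
def wtOne : G ℚ → ℂ :=
  fun k => infComp Rat.infinitePlace k 0 0 + Complex.I * infComp Rat.infinitePlace k 0 1

/-- The `K_∞`-type of `n`. -/
def QWt.type : QWt → G ℚ → ℂ
  | QWt.w0 => T5.trivType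
  | QWt.w1 => wtOne

/-- The weight of `n` in the convention of `T6.wtChar` (`T6/SpecArch.lean`): `0` resp. `-1`. -/
def QWt.wt : QWt → ℤ
  | QWt.w0 => 0
  | QWt.w1 => -1

/-- **LEAF (small): `wtOne` is a `K_∞`-type** (`|k₀₀ + i k₀₁| = 1` and multiplicativity on
`SO(2)`: a real orthogonal matrix of determinant `1` is `!![a, b; -b, a]`; continuity of the
components). -/
def WtOneKTypeC : Prop := T5.IsKType wtOne

theorem wtOne_rotC {k : G ℚ} {θ : ℝ} (h : infComp Rat.infinitePlace k = QOut.rotC θ) :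
    wtOne k = Complex.exp (Complex.I * ((θ : ℝ) : ℂ)) := by
  have e00 : QOut.rotC θ 0 0 = ((Real.cos θ : ℝ) : ℂ) := rfl
  have e01 : QOut.rotC θ 0 1 = ((Real.sin θ : ℝ) : ℂ) := rfl
  show infComp Rat.infinitePlace k 0 0 + Complex.I * infComp Rat.infinitePlace k 0 1 = _
  rw [h, e00, e01, mul_comm Complex.I ((θ : ℝ) : ℂ), Complex.exp_mul_I, Complex.ofReal_cos,
    Complex.ofReal_sin]
  ring

/-! ## 2. Eigenfunctions over `ℚ` -/

/-- `ψ` is an eigenfunction of the circle means of WEIGHT `0` at the real place `w`, with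
eigenvalue function `m` (`A0.MeanValueReal` is the case of the parameter `0`). -/
def MeanEigR0 (ψ : G ℚ → ℂ) (w : InfinitePlace ℚ) (m : ℝ → ℂ) : Prop :=
  ∀ t : ℝ, 0 < t → ∀ Y : ℝ → G ℚ,
    (∀ θ : ℝ, IsLocalAtInf w (Y θ) ∧ infComp w (Y θ) = rotY θ * torus t) →
    ∀ g : G ℚ, (∫ θ in (0 : ℝ)..(2 * Real.pi), ψ (g * Y θ)) = m t * ψ g

/-- `ψ` is an eigenfunction of the circle means of WEIGHT ONE at the real place `w`, with
eigenvalue function `m` (`T6.Inf.MeanValueWtOne` is the case of the parameter `0`). -/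
def MeanEigR1 (ψ : G ℚ → ℂ) (w : InfinitePlace ℚ) (m : ℝ → ℂ) : Prop :=
  ∀ t : ℝ, 0 < t → ∀ Y : ℝ → G ℚ,
    (∀ θ : ℝ, IsLocalAtInf w (Y θ) ∧ infComp w (Y θ) = QOut.rotC θ * torus t) →
    ∀ g : G ℚ,
      (∫ θ in (0 : ℝ)..(2 * Real.pi),
          Complex.exp (-(Complex.I * ((θ : ℝ) : ℂ))) * ψ (g * Y θ)) = m t * ψ g

/-- The circle means of type `n`. -/
def QWt.MeanEig : QWt → (G ℚ → ℂ) → InfinitePlace ℚ → (ℝ → ℂ) → Prop
  | QWt.w0 => MeanEigR0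
  | QWt.w1 => MeanEigR1

/-- The INVARIANT cusp functions of type `n` over `ℚ`: cusp functions of level `𝔫` and type `n`,
invariant under the positive scalars at the real place and under the Iwahori subgroup at `u`. -/
structure IsWFnQ (n : QWt) (𝔫 : Ideal (𝓞 ℚ)) (r : G ℚ) (u : HeightOneSpectrum (𝓞 ℚ))
    (ψ : G ℚ → ℂ) : Prop where
  cusp : T5.IsCuspFn 𝔫 n.type r ψ
  arch_scalar : ∀ (w : InfinitePlace ℚ) (z : G ℚ), IsArchPosScalar w z →
    ∀ g : G ℚ, ψ (g * z) = ψ g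
  iw : IsIwInv 1 (fun _ => u) ψ

/-- An invariant cusp function of type `n` with joint eigen-data `c`: eigenfunction of the Hecke
operators at the primes not dividing `𝔫` and of the circle means of type `n`. -/
structure IsEigFnQ (n : QWt) (𝔫 : Ideal (𝓞 ℚ)) (r : G ℚ) (u : HeightOneSpectrum (𝓞 ℚ))
    (ψ : G ℚ → ℂ) (c : EigData ℚ) : Prop where
  inv : IsWFnQ n 𝔫 r u ψ
  hecke : ∀ v : HeightOneSpectrum (𝓞 ℚ), ¬ v.asIdeal ∣ 𝔫 → IsHeckeEigenAt ψ v (c.a v) (c.b v)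
  mean : ∀ w : InfinitePlace ℚ, n.MeanEig ψ w (c.m w)

/-- `φ` is a product of two Eisenstein-killing test functions OF TYPE `τ` with
Eisenstein-killing adjoints (the hypothesis of `T5.STFsigma` for the type `τ`). -/
def IsEKProdT {K : Type} [Field K] [NumberField K] (τ : G K → ℂ) (𝔫 : Ideal (𝓞 K))
    (R : Frame5 K) (φ : G K → ℂ) : Prop :=
  T5.IsTestFn 𝔫 τ φ ∧
    ∃ φ₁ φ₂ : G K → ℂ, T5.IsTestFn 𝔫 τ φ₁ ∧ T5.IsTestFn 𝔫 τ φ₂ ∧
      T5.IsEK R.μ φ₁ ∧ T5.IsEK R.μ (T5.adjointFn φ₁) ∧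
      T5.IsEK R.μ φ₂ ∧ T5.IsEK R.μ (T5.adjointFn φ₂) ∧ φ = T5.conv R.μ φ₁ φ₂

/-- `φ` is ADMISSIBLE OF TYPE `τ` (`IsAdm5` is the case `τ = 1`). -/
def IsAdm5T {K : Type} [Field K] [NumberField K] (τ : G K → ℂ) (s : T5.AdelicAut K) (l : ℕ)
    (k : Subfield K) (𝔫 : Ideal (𝓞 K)) (R : Frame5 K) (φ : G K → ℂ) : Prop :=
  T5.IsTestFn 𝔫 τ φ ∧ T5.IsTwRegular s l k φ ∧
    ∃ φ₁ φ₂ : G K → ℂ, T5.IsTestFn 𝔫 τ φ₁ ∧ T5.IsTestFn 𝔫 τ φ₂ ∧
      T5.IsEK R.μ φ₁ ∧ T5.IsEK R.μ (T5.adjointFn φ₁) ∧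
      T5.IsEK R.μ φ₂ ∧ T5.IsEK R.μ (T5.adjointFn φ₂) ∧ φ = T5.conv R.μ φ₁ φ₂

theorem isEKProdT_triv_iff {K : Type} [Field K] [NumberField K] {𝔫 : Ideal (𝓞 K)}
    {R : Frame5 K} {φ : G K → ℂ} : IsEKProdT T5.trivType 𝔫 R φ ↔ IsEKProd 𝔫 R φ := Iff.rfl

theorem isAdm5T_triv_iff {K : Type} [Field K] [NumberField K] {s : T5.AdelicAut K} {l : ℕ}
    {k : Subfield K} {𝔫 : Ideal (𝓞 K)} {R : Frame5 K} {φ : G K → ℂ} :
    IsAdm5T T5.trivType s l k 𝔫 R φ ↔ IsAdm5 s l k 𝔫 R φ := Iff.rfl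

theorem isAdm5T_of_ekProdT {K : Type} [Field K] [NumberField K] {τ : G K → ℂ}
    {s : T5.AdelicAut K} {l : ℕ} {k : Subfield K} {𝔫 : Ideal (𝓞 K)} {R : Frame5 K}
    {φ : G K → ℂ} (h : IsEKProdT τ 𝔫 R φ) (hr : T5.IsTwRegular s l k φ) :
    IsAdm5T τ s l k 𝔫 R φ :=
  ⟨h.1, hr, h.2⟩

/-! ## 3. The data of level 2 over `ℚ` -/

section Data

variable (F : Type) [Field F] [NumberField F]

/-- The data supplied by the geometric half (quadratic step). -/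
structure L2QData where
  /-- the conjugation of `F` with its extension to the adeles -/
  s : T5.AdelicAut F
  /-- the image of `ℚ` in `F` -/
  k : Subfield F
  /-- the frame downstairs -/
  R : Frame5 ℚ
  /-- the frame upstairs -/
  R' : Frame5 F
  /-- the base level upstairs -/
  𝔑₀ : Ideal (𝓞 F)
  /-- the places of `F` dividing the base level -/
  S' : Finset (HeightOneSpectrum (𝓞 F))
  /-- the primes of `ℚ` under `S'` -/
  S : Finset ℕ
  /-- the regular place of `ℚ` -/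
  u : HeightOneSpectrum (𝓞 ℚ)
  /-- the `σ`-orbit over `u` -/
  o : ℕ → HeightOneSpectrum (𝓞 F)
  /-- the level downstairs for the bad element `g` -/
  𝔫 : G F → Ideal (𝓞 ℚ)
  /-- the scalar of the Eisenstein-killing base on the eigen-classes -/
  c : G F → EigData F → ℂ
  /-- the family upstairs -/
  φ' : G F → List (Gen F) → ℤ → ℕ → G F → ℂ
  /-- the two families downstairs (trivial type, weight one) -/
  f : QWt → G F → List (Gen F) → ℤ → ℕ → G ℚ → ℂ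
  /-- the regular depth -/
  m₀ : G F → List (Gen F) → ℕ

variable {F}

/-- The data of the comparison for the bad element `g`: levels `𝔫 g` and `(𝔫 g) 𝒪_F`. -/
def L2QData.comp (Dt : L2QData F) (g : G F) : CompData ℚ F where
  l := 2
  s := Dt.s
  k := Dt.k
  𝔫 := Dt.𝔫 g
  𝔑 := Ideal.map (algebraMap (𝓞 ℚ) (𝓞 F)) (Dt.𝔫 g)
  R := Dt.R
  R' := Dt.R'

/-- The level upstairs for the bad element `g`. -/
def L2QData.𝔑 (Dt : L2QData F) (g : G F) : Ideal (𝓞 F) :=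
  Ideal.map (algebraMap (𝓞 ℚ) (𝓞 F)) (Dt.𝔫 g)

/-- `g` is supported at the bad places: the places of `S'` outside the orbit. -/
def L2QData.IsBad (Dt : L2QData F) (g : G F) : Prop :=
  (∀ w : InfinitePlace F, TrivAtInf w g) ∧
    ∀ v : HeightOneSpectrum (𝓞 F), (v ∉ Dt.S' ∨ ∃ j < 2, v = Dt.o j) → TrivAtFin v g

/-- The sum of the two members downstairs. -/
def L2QData.fsum (Dt : L2QData F) (g : G F) (X : List (Gen F)) (k : ℤ) (m : ℕ) : G ℚ → ℂ :=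
  fun x => Dt.f QWt.w0 g X k m x + Dt.f QWt.w1 g X k m x

/-- `Ĉ` (over `F`) is the BASE CHANGE of the eigen-data `c` of type `n` over `ℚ`: the finite part
outside the primes of `S` as in `IsBCEigQ`; the archimedean part by `s ↦ 2 s`
(`T6.ArchMatchC` (b)): `c.m = 2π · sphRad n s ∘ cosh`, `Ĉ.m = 4π · sphC (2 s) ∘ cosh`. -/
def IsBCDataQ (n : QWt) (c : EigData ℚ) (C : EigData F) (S : Finset ℕ) : Prop :=
  (∀ p : ℕ, p.Prime → p ∉ S →
      ∀ v : HeightOneSpectrum (𝓞 ℚ), ((p : ℕ) : 𝓞 ℚ) ∈ v.asIdeal →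
      ∀ (w : HeightOneSpectrum (𝓞 F)) (f : ℕ), ((p : ℕ) : 𝓞 F) ∈ w.asIdeal →
        Ideal.absNorm w.asIdeal = p ^ f →
        C.a w = satakePow f (c.a v) (c.b v) ∧ C.b w = c.b v ^ f) ∧
    ∃ s : ℂ,
      (∀ (w : InfinitePlace ℚ) (t : ℝ), 0 < t →
        c.m w t = ((2 * Real.pi : ℝ) : ℂ) * T6.sphRad n.wt s (Real.cosh t)) ∧
      ∀ (w : InfinitePlace F) (d : ℝ), 0 < d →
        C.m w d = ((4 * Real.pi : ℝ) : ℂ) * T6.sphC (2 * s) (Real.cosh d)

/-- **THE PROPERTIES OF THE DATA OF LEVEL 2, QUADRATIC STEP.**  See the header and the header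
of `T7/Level2.lean`. -/
structure IsL2QData (Φ : HeckeEigensystem F ℂ) (Dt : L2QData F) : Prop where
  comp : ∀ g : G F, Dt.IsBad g → IsCompData (Dt.comp g)
  level_le : Dt.𝔑₀ ≤ Φ.level
  level_g : ∀ g : G F, Dt.IsBad g → Dt.𝔑 g ≤ Dt.𝔑₀
  mem_S' : ∀ w : HeightOneSpectrum (𝓞 F), w ∈ Dt.S' ↔ w.asIdeal ∣ Dt.𝔑₀
  mem_S'_g : ∀ g : G F, Dt.IsBad g →
    ∀ w : HeightOneSpectrum (𝓞 F), w ∈ Dt.S' ↔ w.asIdeal ∣ Dt.𝔑 g
  /-- the primes under `S'` lie in `S` -/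
  under : ∀ p : ℕ, p.Prime → ∀ w : HeightOneSpectrum (𝓞 F), ((p : ℕ) : 𝓞 F) ∈ w.asIdeal →
    w ∈ Dt.S' → p ∈ Dt.S
  const : ∀ p : ℕ, p.Prime → p ∉ Dt.S →
    ∀ w w' : HeightOneSpectrum (𝓞 F), ((p : ℕ) : 𝓞 F) ∈ w.asIdeal →
      ((p : ℕ) : 𝓞 F) ∈ w'.asIdeal → Φ.a w = Φ.a w' ∧ Φ.b w = Φ.b w'
  orbit_rel : ∀ j : ℕ, T5.PlaceRel Dt.s (Dt.o j) (Dt.o (j + 1))
  orbit_ne : ∀ j : ℕ, 0 < j → j < 2 → Dt.o j ≠ Dt.o 0
  orbit_over : ∀ j : ℕ, PlaceOver ℚ F Dt.u (Dt.o j)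
  orbit_level : ∀ j : ℕ, Dt.o j ∈ Dt.S'
  orbit_good : ∀ j : ℕ, ¬ (Dt.o j).asIdeal ∣ Φ.level
  u_level : ∀ g : G F, Dt.IsBad g → Dt.u.asIdeal ∣ Dt.𝔫 g
  /-- the members upstairs are products of Eisenstein-killing test functions -/
  ekprod_up : ∀ (g : G F) (X : List (Gen F)) (k : ℤ) (m : ℕ), Dt.IsBad g →
    (∀ x ∈ X, x.Out Dt.S') → IsEKProd (Dt.𝔑 g) Dt.R' (Dt.φ' g X k m)
  /-- the members downstairs are products of Eisenstein-killing test functions of their type -/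
  ekprod_down : ∀ (n : QWt) (g : G F) (X : List (Gen F)) (k : ℤ) (m : ℕ), Dt.IsBad g →
    (∀ x ∈ X, x.Out Dt.S') → IsEKProdT n.type (Dt.𝔫 g) Dt.R (Dt.f n g X k m)
  /-- regularity upstairs from the depth `m₀ g X` on -/
  reg_up : ∀ (g : G F) (X : List (Gen F)) (k : ℤ) (m : ℕ), Dt.IsBad g →
    (∀ x ∈ X, x.Out Dt.S') → Dt.m₀ g X ≤ m →
    T5.IsTwRegular Dt.s 2 Dt.k (Dt.φ' g X k m)
  /-- regularity downstairs from the depth `m₀ g X` on -/
  reg_down : ∀ (n : QWt) (g : G F) (X : List (Gen F)) (k : ℤ) (m : ℕ), Dt.IsBad g →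
    (∀ x ∈ X, x.Out Dt.S') → Dt.m₀ g X ≤ m →
    T5.IsTwRegular (T5.AdelicAut.id ℚ) 1 ⊤ (Dt.f n g X k m)
  /-- the member upstairs and THE SUM of the two members downstairs are matched from the depth
  `m₀ g X` on -/
  matched : ∀ (g : G F) (X : List (Gen F)) (k : ℤ) (m : ℕ), Dt.IsBad g →
    (∀ x ∈ X, x.Out Dt.S') → Dt.m₀ g X ≤ m →
    IsGlobMatch (Dt.comp g) (Dt.φ' g X k m) (Dt.fsum g X k m)
  /-- the scalar of the base does not vanish on the class of `Φ` -/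
  base_ne : ∀ g : G F, Dt.IsBad g →
    ∀ C : EigData F, C.AgreeOut Dt.S' (eigOf Φ) → Dt.c g C ≠ 0
  /-- (OP-up) -/
  op_up : ∀ (g : G F) (X : List (Gen F)) (k : ℤ) (m : ℕ), Dt.IsBad g →
    (∀ x ∈ X, x.Out Dt.S') →
    ∀ (ψ : G F → ℂ) (C : EigData F), IsEigFn Dt.𝔑₀ Dt.R'.r 2 Dt.o ψ C →
    ∀ (Hg H : Finset (G F)) (z : G F), IsDblCosetSystem Dt.𝔑₀ g Hg →
      IsIwCosetSystem (Dt.o 0) H → IsScalarUniformizerAt (Dt.o 0) z →
      ∀ x : G F, T5.Rconv Dt.R'.μ (Dt.φ' g X k m) ψ x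
        = wordEv X C * Dt.c g C * cosetOp Hg (shiftOp z k ((iwOp (Dt.o 0) H)^[m] ψ)) x
  /-- (KILL-up) -/
  kill_up : ∀ (g : G F) (X : List (Gen F)) (k : ℤ) (m : ℕ), Dt.IsBad g →
    (∀ x ∈ X, x.Out Dt.S') →
    ∀ ψ : G F → ℂ, T5.IsCuspFn (Dt.𝔑 g) T5.trivType Dt.R'.r ψ →
      (∀ χ : G F → ℂ, IsWFn Dt.𝔑₀ Dt.R'.r 2 Dt.o χ →
        T5.innerD Dt.R'.μ Dt.R'.F ψ χ = 0) →
      ∀ x : G F, T5.Rconv Dt.R'.μ (Dt.φ' g X k m) ψ x = 0
  /-- the orthogonal projection on the invariant cusp functions upstairs -/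
  proj_up : ∀ g : G F, Dt.IsBad g →
    ∀ ψ : G F → ℂ, T5.IsCuspFn (Dt.𝔑 g) T5.trivType Dt.R'.r ψ →
    ∃ ψ₁ : G F → ℂ, IsWFn Dt.𝔑₀ Dt.R'.r 2 Dt.o ψ₁ ∧
      ∀ χ : G F → ℂ, IsWFn Dt.𝔑₀ Dt.R'.r 2 Dt.o χ →
        T5.innerD Dt.R'.μ Dt.R'.F (fun x => ψ x - ψ₁ x) χ = 0
  /-- (OP-down), per type -/
  op_down : ∀ (n : QWt) (g : G F) (X : List (Gen F)) (k : ℤ) (m : ℕ), Dt.IsBad g →
    (∀ x ∈ X, x.Out Dt.S') →
    ∀ (ψ : G ℚ → ℂ) (c : EigData ℚ) (C : EigData F),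
      IsEigFnQ n (Dt.𝔫 g) Dt.R.r Dt.u ψ c → IsBCDataQ n c C Dt.S →
    ∀ (H : Finset (G ℚ)) (z : G ℚ), IsIwCosetSystem Dt.u H → IsScalarUniformizerAt Dt.u z →
      ∀ x : G ℚ, T5.Rconv Dt.R.μ (Dt.f n g X k m) ψ x
        = wordEv X C
          * T5.Rconv Dt.R.μ (Dt.f n g [] 0 0) (shiftOp z k ((iwOp Dt.u H)^[m] ψ)) x
  /-- the base downstairs preserves the eigen-classes, per type -/
  class_down : ∀ (n : QWt) (g : G F), Dt.IsBad g → ∀ (ψ : G ℚ → ℂ) (c : EigData ℚ),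
    IsEigFnQ n (Dt.𝔫 g) Dt.R.r Dt.u ψ c →
    IsEigFnQ n (Dt.𝔫 g) Dt.R.r Dt.u (T5.Rconv Dt.R.μ (Dt.f n g [] 0 0) ψ) c
  /-- the base downstairs commutes with the operators at `u`, per type -/
  comm_down : ∀ (n : QWt) (g : G F), Dt.IsBad g → ∀ ψ : G ℚ → ℂ,
    IsWFnQ n (Dt.𝔫 g) Dt.R.r Dt.u ψ →
    ∀ (H : Finset (G ℚ)) (z : G ℚ), IsIwCosetSystem Dt.u H → IsScalarUniformizerAt Dt.u z →
      (∀ x : G ℚ, T5.Rconv Dt.R.μ (Dt.f n g [] 0 0) (iwOp Dt.u H ψ) x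
        = iwOp Dt.u H (T5.Rconv Dt.R.μ (Dt.f n g [] 0 0) ψ) x) ∧
      ∀ (k : ℤ) (x : G ℚ), T5.Rconv Dt.R.μ (Dt.f n g [] 0 0) (shiftOp z k ψ) x
        = shiftOp z k (T5.Rconv Dt.R.μ (Dt.f n g [] 0 0) ψ) x
  /-- (KILL-down), per type -/
  kill_down : ∀ (n : QWt) (g : G F) (X : List (Gen F)) (k : ℤ) (m : ℕ), Dt.IsBad g →
    (∀ x ∈ X, x.Out Dt.S') →
    ∀ ψ : G ℚ → ℂ, T5.IsCuspFn (Dt.𝔫 g) n.type Dt.R.r ψ →
      (∀ χ : G ℚ → ℂ, IsWFnQ n (Dt.𝔫 g) Dt.R.r Dt.u χ →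
        T5.innerD Dt.R.μ Dt.R.F ψ χ = 0) →
      ∀ x : G ℚ, T5.Rconv Dt.R.μ (Dt.f n g X k m) ψ x = 0
  /-- the orthogonal projection on the invariant cusp functions downstairs, per type -/
  proj_down : ∀ (n : QWt) (g : G F), Dt.IsBad g →
    ∀ ψ : G ℚ → ℂ, T5.IsCuspFn (Dt.𝔫 g) n.type Dt.R.r ψ →
    ∃ ψ₁ : G ℚ → ℂ, IsWFnQ n (Dt.𝔫 g) Dt.R.r Dt.u ψ₁ ∧
      ∀ χ : G ℚ → ℂ, IsWFnQ n (Dt.𝔫 g) Dt.R.r Dt.u χ →
        T5.innerD Dt.R.μ Dt.R.F (fun x => ψ x - ψ₁ x) χ = 0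

end Data

/-! ## 4. The class bijection and the spectral identity for matched TRIPLES -/

section Matching

variable (F : Type) [Field F] [NumberField F]

/-- **LEAF T7.G1Q = GEOM over `ℚ` (class bijection, two types).**  For a matched triple
(`φ'` over `F`, `f₀` of trivial type and `f₁` of weight one over `ℚ`, `f₀ + f₁` matched with
`φ'`) of regular test functions: `geomSide(φ') = geomSide(f₀) + geomSide(f₁)`.
Proof.  `T5.GeomUnfold` three times; the two finite sums downstairs run over the conjugacy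
classes of `GL₂(ℚ)` and are added class by class (`twTerm` is additive in the test function:
`flat r (f₀ + f₁) = flat r f₀ + flat r f₁`, both series are finite sums locally); then as in
`GeomC` (`T6.NormClassC`, `T6.NormInjC`, `norm`, `nonnorm`). -/
def GeomQC : Prop :=
  ∀ D : CompData ℚ F, IsCompData D →
    T5.GeomUnfold D.s D.l D.k D.𝔑 T5.trivType →
    T5.GeomUnfold (T5.AdelicAut.id ℚ) 1 ⊤ D.𝔫 T5.trivType →
    T5.GeomUnfold (T5.AdelicAut.id ℚ) 1 ⊤ D.𝔫 wtOne →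
    T6.NormClassC → T6.NormInjC →
    ∀ (φ' : G F → ℂ) (f₀ f₁ : G ℚ → ℂ),
      T5.IsTestFn D.𝔑 T5.trivType φ' → T5.IsTwRegular D.s D.l D.k φ' →
      T5.IsTestFn D.𝔫 T5.trivType f₀ → T5.IsTwRegular (T5.AdelicAut.id ℚ) 1 ⊤ f₀ →
      T5.IsTestFn D.𝔫 wtOne f₁ → T5.IsTwRegular (T5.AdelicAut.id ℚ) 1 ⊤ f₁ →
      IsGlobMatch D φ' (fun x => f₀ x + f₁ x) →
      geomSide D.s D.R' φ' = geomSide (T5.AdelicAut.id ℚ) D.R f₀
        + geomSide (T5.AdelicAut.id ℚ) D.R f₁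

/-- **THE SPECTRAL IDENTITY for matched admissible TRIPLES**, in ALL complete orthonormal
sequences of cusp functions (of trivial type upstairs; of trivial type and of weight one
downstairs): the three sides are absolutely summable and
`∑_j ⟨R(φ') R(σ) e'_j, e'_j⟩ = ∑_i ⟨R(f₀) e⁰_i, e⁰_i⟩ + ∑_i ⟨R(f₁) e¹_i, e¹_i⟩`. -/
def SpecIdQC : Prop :=
  ∀ D : CompData ℚ F, IsCompData D →
    ∀ (φ' : G F → ℂ) (f₀ f₁ : G ℚ → ℂ),
      IsAdm5 D.s D.l D.k D.𝔑 D.R' φ' →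
      IsAdm5T T5.trivType (T5.AdelicAut.id ℚ) 1 ⊤ D.𝔫 D.R f₀ →
      IsAdm5T wtOne (T5.AdelicAut.id ℚ) 1 ⊤ D.𝔫 D.R f₁ →
      IsGlobMatch D φ' (fun x => f₀ x + f₁ x) →
      ∀ (e' : ℕ → G F → ℂ) (e₀ e₁ : ℕ → G ℚ → ℂ),
        T5.IsCuspONB D.𝔑 T5.trivType D.R'.r D.R'.μ D.R'.F e' →
        T5.IsCuspONB D.𝔫 T5.trivType D.R.r D.R.μ D.R.F e₀ →
        T5.IsCuspONB D.𝔫 wtOne D.R.r D.R.μ D.R.F e₁ →
        Summable (fun j => T5.diagCoeff D.s D.R'.μ D.R'.F φ' (e' j)) ∧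
        Summable (fun i => T5.diagCoeff (T5.AdelicAut.id ℚ) D.R.μ D.R.F f₀ (e₀ i)) ∧
        Summable (fun i => T5.diagCoeff (T5.AdelicAut.id ℚ) D.R.μ D.R.F f₁ (e₁ i)) ∧
        specSide D.s D.R' e' φ' = specSide (T5.AdelicAut.id ℚ) D.R e₀ f₀
          + specSide (T5.AdelicAut.id ℚ) D.R e₁ f₁

variable {F}

/-- **The spectral identity for triples from the three towers of T5 and the class
bijection.** -/
theorem specIdQC_of
    (hT' : ∀ D : CompData ℚ F, IsCompData D → T5.Tower D.s D.l D.k D.𝔑 T5.trivType)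
    (hT0 : ∀ 𝔫 : Ideal (𝓞 ℚ), 𝔫 ≠ ⊥ → T5.Tower (T5.AdelicAut.id ℚ) 1 ⊤ 𝔫 T5.trivType)
    (hT1 : ∀ 𝔫 : Ideal (𝓞 ℚ), 𝔫 ≠ ⊥ → T5.Tower (T5.AdelicAut.id ℚ) 1 ⊤ 𝔫 wtOne)
    (hN : T6.NormClassC) (hI : T6.NormInjC) (hG : GeomQC F) : SpecIdQC F := by
  intro D hD φ' f₀ f₁ hφ' hf₀ hf₁ hm e' e₀ e₁ he' he₀ he₁
  obtain ⟨t', r', φ₁, φ₂, t₁, t₂, k₁, k₁', k₂, k₂', rfl⟩ := hφ'
  obtain ⟨t0, r0, a₁, a₂, u₁, u₂, j₁, j₁', j₂, j₂', rfl⟩ := hf₀
  obtain ⟨t1, r1, c₁, c₂, v₁, v₂, i₁, i₁', i₂, i₂', rfl⟩ := hf₁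
  have hup := (hT' D hD).stf D.R'.μ D.R'.F D.R'.r hD.frame'.frame hD.frame'.ray hD.aut e' he'
    φ₁ φ₂ t₁ t₂ k₁ k₁' k₂ k₂'
  have hd0 := (hT0 D.𝔫 hD.level_ne).stf D.R.μ D.R.F D.R.r hD.frame.frame hD.frame.ray
    (T5.autPreserves_id D.𝔫 D.R.μ D.R.r) e₀ he₀ a₁ a₂ u₁ u₂ j₁ j₁' j₂ j₂'
  have hd1 := (hT1 D.𝔫 hD.level_ne).stf D.R.μ D.R.F D.R.r hD.frame.frame hD.frame.ray
    (T5.autPreserves_id D.𝔫 D.R.μ D.R.r) e₁ he₁ c₁ c₂ v₁ v₂ i₁ i₁' i₂ i₂'
  refine ⟨hup.1, hd0.1, hd1.1, ?_⟩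
  have hgeo := hG D hD (hT' D hD).unfold (hT0 D.𝔫 hD.level_ne).unfold
    (hT1 D.𝔫 hD.level_ne).unfold hN hI _ _ _ t' r' t0 r0 t1 r1 hm
  unfold specSide
  rw [hup.2.2, hd0.2.2, hd1.2.2]
  exact hgeo

end Matching

/-! ## 5. The three nodes -/

section Nodes

variable (P : EKCond)
variable (F : Type) [Field F] [NumberField F]

/-- **NODE T7.L2Q.1 = SUPPLY over `ℚ`** (geometric half: T3 over `F` and over `ℚ` (two types),
T5, T6 with the archimedean matching `T6.ArchMatchC`, `T6.ArchInjC`).  See the header. -/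
def SupplyQC : Prop :=
  HasSqrtNegThree F → IsImagQuad F →
    ∀ Φ : HeckeEigensystem F ℂ, A0.IsCuspAdelicSph0 F Φ → ConstOnFibresQ Φ → P F Φ →
      ∃ Dt : L2QData F, IsL2QData Φ Dt

/-- **NODE T7.L2Q.2 = SPEC-UP over `ℚ`** (spectral half upstairs + non-vanishing): the cyclic
node `SpecUpC` with `ℓ = 2`; only the upstairs clauses of `IsL2QData` are used by its proof. -/
def SpecUpQC : Prop :=
  HasSqrtNegThree F → IsImagQuad F →
    ∀ Φ : HeckeEigensystem F ℂ, A0.IsCuspAdelicSph0 F Φ → ConstOnFibresQ Φ →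
      ∀ Dt : L2QData F, IsL2QData Φ Dt →
      ∃ (g : G F) (e' : ℕ → G F → ℂ) (ι' : Type) (C : ι' → EigData F) (b' l' : ι' → ℂ)
        (R : ℝ) (y : ι' → ℂ),
        Dt.IsBad g ∧
        T5.IsCuspONB (Dt.𝔑 g) T5.trivType Dt.R'.r Dt.R'.μ Dt.R'.F e' ∧
        Summable (fun j => ‖y j‖) ∧ (∀ j, (C j).IsUnitaryOut Dt.S') ∧
        (∀ j, IsRegParam R (b' j) (l' j)) ∧
        (∀ X : List (Gen F), (∀ x ∈ X, x.Out Dt.S') → ∀ (k : ℤ) (m : ℕ), Dt.m₀ g X ≤ m →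
          specSide Dt.s Dt.R' e' (Dt.φ' g X k m)
            = ∑' j, wordEv X (C j) * y j * b' j ^ k * l' j ^ m) ∧
        ∃ b₀ l₀ : ℂ,
          (∑' j : {j : {j : ι' // b' j = b₀ ∧ l' j = l₀} //
              (C j.1).AgreeOut Dt.S' (eigOf Φ)}, y j.1.1) ≠ 0

/-- **NODE T7.L2Q.3 = SPEC-DOWN over `ℚ`** (spectral half downstairs + realisation), for the
type `n`.  The realisation clause: an atom whose base change is spherical of parameter `0` is
realised in the sense of `A0.notion556` (type `w0`: `A0.IsCuspAdelicSph0 ℚ`; type `w1`: D3 +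
QOUT, `H670.D3.realise_wtOne`, with the eigensystem `π'` of that lemma as `c i`). -/
def SpecDownQAt (n : QWt) : Prop :=
  HasSqrtNegThree F → IsImagQuad F →
    ∀ Φ : HeckeEigensystem F ℂ, A0.IsCuspAdelicSph0 F Φ → ConstOnFibresQ Φ →
      ∀ Dt : L2QData F, IsL2QData Φ Dt → ∀ g : G F, Dt.IsBad g →
      ∃ (e : ℕ → G ℚ → ℂ) (ι : Type) (c : ι → HeckeEigensystem ℚ ℂ) (Ch : ι → EigData F)
        (b l : ι → ℂ) (R : ℝ) (x : ι → ℂ),
        T5.IsCuspONB (Dt.𝔫 g) n.type Dt.R.r Dt.R.μ Dt.R.F e ∧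
        Summable (fun i => ‖x i‖) ∧ (∀ i, (Ch i).IsUnitaryOut Dt.S') ∧
        (∀ i, IsBCEigQ F (c i) (Ch i) Dt.S) ∧
        (∀ i, IsRegParam R (b i) (l i)) ∧
        (∀ X : List (Gen F), (∀ x ∈ X, x.Out Dt.S') → ∀ (k : ℤ) (m : ℕ), Dt.m₀ g X ≤ m →
          specSide (T5.AdelicAut.id ℚ) Dt.R e (Dt.f n g X k m)
            = ∑' i, wordEv X (Ch i) * x i * b i ^ k * l i ^ m) ∧
        ∀ i, (Ch i).IsSph0 → A0.notion556.IsCusp ℚ (c i)

/-- **NODE T7.L2Q.3 = SPEC-DOWN over `ℚ`**: both types. -/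
def SpecDownQC : Prop := ∀ n : QWt, SpecDownQAt F n

variable {P F}

/-- The atoms `wordEv X (A i) · x i · b i ^ k · l i ^ m` are summable. -/
theorem summable_atoms {K : Type} [Field K] [NumberField K]
    {S : Finset (HeightOneSpectrum (𝓞 K))} {ι : Type} {A : ι → EigData K} {x b l : ι → ℂ}
    {R : ℝ} (hA : ∀ i, (A i).IsUnitaryOut S) (hx : Summable fun i => ‖x i‖)
    (hp : ∀ i, IsRegParam R (b i) (l i)) (X : List (Gen K)) (hX : ∀ g ∈ X, g.Out S)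
    (k : ℤ) (m : ℕ) :
    Summable fun i => wordEv X (A i) * x i * b i ^ k * l i ^ m := by
  refine Summable.of_norm_bounded (g := fun i => wordBd X * ‖x i‖ * R ^ m)
    ((hx.mul_left (wordBd X)).mul_right (R ^ m)) (fun i => ?_)
  rw [norm_mul, norm_mul, norm_mul, norm_zpow, (hp i).1, one_zpow, mul_one, norm_pow]
  exact mul_le_mul
    (mul_le_mul (norm_wordEv_le (hA i) X hX) le_rfl (norm_nonneg _) (wordBd_nonneg X))
    (pow_le_pow_left₀ (norm_nonneg _) (hp i).2.1 m) (pow_nonneg (norm_nonneg _) m)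
    (mul_nonneg (wordBd_nonneg X) (norm_nonneg _))

/-- **THE ASSEMBLY OF LEVEL 2 OVER `ℚ`**: the regular trace identity for words (target
`T7.TraceWordsQRegP P F`, VERBATIM) from the three nodes and the spectral identity for matched
triples.  The atoms downstairs are the disjoint union of the atoms of the two types. -/
theorem traceWordsQRegP_of (hS : SupplyQC P F) (hU : SpecUpQC F) (hD : SpecDownQC F)
    (hI : SpecIdQC F) : TraceWordsQRegP P F := by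
  intro h3 hquad Φ hΦ hconst hP
  obtain ⟨Dt, hDt⟩ := hS h3 hquad Φ hΦ hconst hP
  obtain ⟨g, e', ι', C, b', l', R', y, hg, he', hy, hUB, hp', hexp', hne⟩ :=
    hU h3 hquad Φ hΦ hconst Dt hDt
  obtain ⟨e₀, ι₀, c₀, Ch₀, b₀, l₀, R₀, x₀, he₀, hx₀, hUA₀, hbc₀, hp₀, hexp₀, hreal₀⟩ :=
    hD QWt.w0 h3 hquad Φ hΦ hconst Dt hDt g hg
  obtain ⟨e₁, ι₁, c₁, Ch₁, b₁, l₁, R₁, x₁, he₁, hx₁, hUA₁, hbc₁, hp₁, hexp₁, hreal₁⟩ :=
    hD QWt.w1 h3 hquad Φ hΦ hconst Dt hDt g hg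
  have hUA : ∀ i : ι₀ ⊕ ι₁, (Sum.elim Ch₀ Ch₁ i).IsUnitaryOut Dt.S' := by
    rintro (i | i)
    · exact hUA₀ i
    · exact hUA₁ i
  have hx : Summable fun i : ι₀ ⊕ ι₁ => ‖Sum.elim x₀ x₁ i‖ :=
    Summable.sum _ (by simpa [Function.comp_def] using hx₀)
      (by simpa [Function.comp_def] using hx₁)
  have hp : ∀ i : ι₀ ⊕ ι₁,
      IsRegParam (max R' (max R₀ R₁)) (Sum.elim b₀ b₁ i) (Sum.elim l₀ l₁ i) := by
    rintro (i | i)
    · exact isRegParam_mono ((le_max_left _ _).trans (le_max_right _ _)) (hp₀ i)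
    · exact isRegParam_mono ((le_max_right _ _).trans (le_max_right _ _)) (hp₁ i)
  refine ⟨Dt.S, Dt.S', ι₀ ⊕ ι₁, ι', Sum.elim c₀ c₁, Sum.elim Ch₀ Ch₁, C, Sum.elim b₀ b₁,
    Sum.elim l₀ l₁, b', l', max R' (max R₀ R₁), Sum.elim x₀ x₁, y, hDt.under, hx, hy, hUA, hUB,
    ?_, hp, fun j => isRegParam_mono (le_max_left _ _) (hp' j), ?_, hne, ?_⟩
  · rintro (i | i)
    · exact hbc₀ i
    · exact hbc₁ i
  · intro X hX
    refine ⟨Dt.m₀ g X, fun m hm k => ?_⟩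
    have hid := (hI (Dt.comp g) (hDt.comp g hg) (Dt.φ' g X k m) (Dt.f QWt.w0 g X k m)
      (Dt.f QWt.w1 g X k m)
      (isAdm5_of_ekProd (hDt.ekprod_up g X k m hg hX) (hDt.reg_up g X k m hg hX hm))
      (isAdm5T_of_ekProdT (hDt.ekprod_down QWt.w0 g X k m hg hX)
        (hDt.reg_down QWt.w0 g X k m hg hX hm))
      (isAdm5T_of_ekProdT (hDt.ekprod_down QWt.w1 g X k m hg hX)
        (hDt.reg_down QWt.w1 g X k m hg hX hm))
      (hDt.matched g X k m hg hX hm) e' e₀ e₁ he' he₀ he₁).2.2.2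
    have hs₀ := summable_atoms hUA₀ hx₀ hp₀ X hX k m
    have hs₁ := summable_atoms hUA₁ hx₁ hp₁ X hX k m
    have hsplit : (∑' i : ι₀ ⊕ ι₁, wordEv X (Sum.elim Ch₀ Ch₁ i) * Sum.elim x₀ x₁ i
          * Sum.elim b₀ b₁ i ^ k * Sum.elim l₀ l₁ i ^ m)
        = (∑' i, wordEv X (Ch₀ i) * x₀ i * b₀ i ^ k * l₀ i ^ m)
          + ∑' i, wordEv X (Ch₁ i) * x₁ i * b₁ i ^ k * l₁ i ^ m :=
      Summable.tsum_sum (f := fun i : ι₀ ⊕ ι₁ => wordEv X (Sum.elim Ch₀ Ch₁ i)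
        * Sum.elim x₀ x₁ i * Sum.elim b₀ b₁ i ^ k * Sum.elim l₀ l₁ i ^ m) hs₀ hs₁
    rw [hsplit, ← hexp₀ X hX k m hm, ← hexp₁ X hX k m hm, ← hexp' X hX k m hm]
    exact hid.symm
  · rintro (i | i)
    · exact hreal₀ i
    · exact hreal₁ i

end Nodes

/-- The assembly for all number fields (target `T7.TraceWordsQRegPAll P`, VERBATIM). -/
theorem traceWordsQRegPAll_of (P : EKCond)
    (hS : ∀ (F : Type) [Field F] [NumberField F], SupplyQC P F)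
    (hU : ∀ (F : Type) [Field F] [NumberField F], SpecUpQC F)
    (hD : ∀ (F : Type) [Field F] [NumberField F], SpecDownQC F)
    (hI : ∀ (F : Type) [Field F] [NumberField F], SpecIdQC F) : TraceWordsQRegPAll P :=
  fun F _ _ => traceWordsQRegP_of (hS F) (hU F) (hD F) (hI F)

/-! ## Appendix (v1.1, additive): the equation lemmas of the definitions of this file are
realised HERE

See the appendix of `T7/Comparison.lean` v0.1 (helper797; helper8, helper112): equation lemmas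
are generated on demand in the module which first uses them; citing them here generates them
once, upstream of every user.  No statement of this file is changed. -/

theorem QWt.type_w0 : QWt.w0.type = T5.trivType := rfl

theorem QWt.type_w1 : QWt.w1.type = wtOne := rfl

theorem QWt.wt_w0 : QWt.w0.wt = 0 := rfl

theorem QWt.wt_w1 : QWt.w1.wt = -1 := rfl

theorem QWt.meanEig_w0 : QWt.w0.MeanEig = MeanEigR0 := rfl

theorem QWt.meanEig_w1 : QWt.w1.MeanEig = MeanEigR1 := rfl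

theorem eqns_realised826 : True := by
  have _a1 := @QWt.type.eq_1
  have _a2 := @QWt.type.eq_2
  have _a3 := @QWt.type.eq_def
  have _a4 := @QWt.type.eq_unfold
  have _b1 := @QWt.wt.eq_1
  have _b2 := @QWt.wt.eq_2
  have _b3 := @QWt.wt.eq_def
  have _b4 := @QWt.wt.eq_unfold
  have _c1 := @QWt.MeanEig.eq_1
  have _c2 := @QWt.MeanEig.eq_2
  have _c3 := @QWt.MeanEig.eq_def
  have _c4 := @QWt.MeanEig.eq_unfold
  have _d1 := @wtOne.eq_1
  have _d2 := @wtOne.eq_def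
  have _d3 := @wtOne.eq_unfold
  have _e1 := @MeanEigR0.eq_1
  have _e2 := @MeanEigR0.eq_def
  have _e3 := @MeanEigR0.eq_unfold
  have _f1 := @MeanEigR1.eq_1
  have _f2 := @MeanEigR1.eq_def
  have _f3 := @MeanEigR1.eq_unfold
  have _g1 := @IsEKProdT.eq_1
  have _g2 := @IsEKProdT.eq_def
  have _g3 := @IsEKProdT.eq_unfold
  have _h1 := @IsAdm5T.eq_1
  have _h2 := @IsAdm5T.eq_def
  have _h3 := @IsAdm5T.eq_unfold
  have _i1 := @L2QData.comp.eq_1
  have _i2 := @L2QData.comp.eq_def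
  have _i3 := @L2QData.comp.eq_unfold
  have _j1 := @L2QData.𝔑.eq_1
  have _j2 := @L2QData.𝔑.eq_def
  have _j3 := @L2QData.𝔑.eq_unfold
  have _k1 := @L2QData.IsBad.eq_1
  have _k2 := @L2QData.IsBad.eq_def
  have _k3 := @L2QData.IsBad.eq_unfold
  have _l1 := @L2QData.fsum.eq_1
  have _l2 := @L2QData.fsum.eq_def
  have _l3 := @L2QData.fsum.eq_unfold
  have _m1 := @IsBCDataQ.eq_1
  have _m2 := @IsBCDataQ.eq_def
  have _m3 := @IsBCDataQ.eq_unfold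
  have _n1 := @GeomQC.eq_1
  have _n2 := @GeomQC.eq_def
  have _n3 := @GeomQC.eq_unfold
  have _o1 := @SpecIdQC.eq_1
  have _o2 := @SpecIdQC.eq_def
  have _o3 := @SpecIdQC.eq_unfold
  have _p1 := @SupplyQC.eq_1
  have _p2 := @SupplyQC.eq_def
  have _p3 := @SupplyQC.eq_unfold
  have _q1 := @SpecUpQC.eq_1
  have _q2 := @SpecUpQC.eq_def
  have _q3 := @SpecUpQC.eq_unfold
  have _r1 := @SpecDownQAt.eq_1
  have _r2 := @SpecDownQAt.eq_def
  have _r3 := @SpecDownQAt.eq_unfold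
  have _s1 := @SpecDownQC.eq_1
  have _s2 := @SpecDownQC.eq_def
  have _s3 := @SpecDownQC.eq_unfold
  have _t1 := @WtOneKTypeC.eq_1
  have _t2 := @WtOneKTypeC.eq_def
  have _t3 := @WtOneKTypeC.eq_unfold
  trivial

end Fermat.Agent.LT.T7.L2Q

end
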