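import Mathlib
import Fermat.Agent.LT.T7.H826.Level2Q
import Fermat.Agent.LT.T7.H277.Geom
import Fermat.Agent.LT.T7.H277.FlatAdd

/-!
# Row LT, tower T7, row 2150 (helper826): leaf `L2Q.GeomQC` (class bijection over `ℚ`, two
# types) -- OFF-MAIN

PROVED: `geomQC826 (F) : Fermat.Agent.LT.T7.L2Q.GeomQC F`, VERBATIM the Prop of
`LT/T7/H826/Level2Q.lean`, UNCONDITIONAL.

Route: the proof `geomC277` of helper277 (`LT/T7/H277/Geom.lean`, byte-identical copy) for the
function `f = f₀ + f₁`, with ONE new step: the two unfolded sums downstairs are added class by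
class (`finsum_add_distrib`, the supports are finite by `T5.GeomUnfold`; `twTerm` is additive on
compactly supported functions: `H277.twTerm_add277`, asset of helper277); `f₀ + f₁` is regular
because `f₀` and `f₁` are.
-/

set_option autoImplicit false
open IsDedekindDomain NumberField MeasureTheory
open scoped MatrixGroups

noncomputable section
namespace Fermat.Agent.LT.T7.L2Q

open Fermat.Agent.LT.H556.A0 Fermat.Agent.LT Fermat.Agent.LT.T7.H277

attribute [local instance] Fermat.Agent.LT.T5.instMeasurableSpaceG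

/-- The sum of two regular functions is regular. -/
theorem isTwRegular_add826 {K : Type} [Field K] [NumberField K] {s : T5.AdelicAut K} {l : ℕ}
    {k : Subfield K} {f₀ f₁ : G K → ℂ} (h₀ : T5.IsTwRegular s l k f₀)
    (h₁ : T5.IsTwRegular s l k f₁) : T5.IsTwRegular s l k (fun x => f₀ x + f₁ x) := by
  intro x δ z hz hne
  by_cases h0 : f₀ (x⁻¹ * T5.ratG δ * s.onG x * z) = 0
  · refine h₁ x δ z hz ?_
    intro h1
    apply hne
    show f₀ _ + f₁ _ = 0
    rw [h0, h1, add_zero]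
  · exact h₀ x δ z hz h0

/-- **LEAF T7.G1Q = `GeomQC`, VERBATIM, UNCONDITIONAL.** -/
theorem geomQC826 (F : Type) [Field F] [NumberField F] : GeomQC F := by
  intro D hD hU' hU0 hU1 hNC hNI φ' f₀ f₁ hφ' hr' hf₀ hr₀ hf₁ hr₁ hm
  classical
  have hcd : T6.IsCyclicData ℚ F D.l (algebraMap ℚ F) D.s.σ := isCyclicData277 hD
  obtain ⟨-, hU'2⟩ := hU' D.R'.μ D.R'.F D.R'.r hD.frame'.frame hD.frame'.ray hD.aut φ' hφ' hr'
  obtain ⟨hfin0, hU02⟩ := hU0 D.R.μ D.R.F D.R.r hD.frame.frame hD.frame.ray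
    (T5.autPreserves_id D.𝔫 D.R.μ D.R.r) f₀ hf₀ hr₀
  obtain ⟨hfin1, hU12⟩ := hU1 D.R.μ D.R.F D.R.r hD.frame.frame hD.frame.ray
    (T5.autPreserves_id D.𝔫 D.R.μ D.R.r) f₁ hf₁ hr₁
  -- domains
  have hdom' : ∀ δ : GL (Fin 2) F, ∃ Fδ : Set (G F), T5.IsTwDomain D.s δ Fδ := fun δ =>
    exists_isTwDomain277 (T1.H309.adNormC309 F) hD.frame'.frame D.s δ
  have hdom : ∀ γ : GL (Fin 2) ℚ, ∃ Fγ : Set (G ℚ),
      T5.IsTwDomain (T5.AdelicAut.id ℚ) γ Fγ := fun γ =>
    exists_isTwDomain277 (T1.H309.adNormC309 ℚ) hD.frame.frame (T5.AdelicAut.id ℚ) γ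
  choose Fd' hFd' using hdom'
  choose Fd hFd using hdom
  -- representatives
  let rep' : T5.TwClass D.s → GL (Fin 2) F := Quotient.out
  let rep : T5.TwClass (T5.AdelicAut.id ℚ) → GL (Fin 2) ℚ := Quotient.out
  have hrep' : ∀ c, Quotient.mk (T5.twSetoid D.s) (rep' c) = c := fun c => Quotient.out_eq c
  have hrep : ∀ c, Quotient.mk (T5.twSetoid (T5.AdelicAut.id ℚ)) (rep c) = c :=
    fun c => Quotient.out_eq c
  obtain ⟨-, e1⟩ := hU'2 rep' (fun c => Fd' (rep' c)) hrep' (fun c => hFd' _)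
  obtain ⟨hint0, e20⟩ := hU02 rep (fun c => Fd (rep c)) hrep (fun c => hFd _)
  obtain ⟨hint1, e21⟩ := hU12 rep (fun c => Fd (rep c)) hrep (fun c => hFd _)
  -- the sum
  have hr : T5.IsTwRegular (T5.AdelicAut.id ℚ) 1 ⊤ (fun x => f₀ x + f₁ x) :=
    isTwRegular_add826 hr₀ hr₁
  have hadd : ∀ (δ : GL (Fin 2) ℚ) (x : G ℚ),
      T5.twTerm D.R.r (T5.AdelicAut.id ℚ) (fun y => f₀ y + f₁ y) δ x
        = T5.twTerm D.R.r (T5.AdelicAut.id ℚ) f₀ δ x
          + T5.twTerm D.R.r (T5.AdelicAut.id ℚ) f₁ δ x :=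
    fun δ x => twTerm_add277 (T1.H309.adNormC309 ℚ) hD.frame.ray _ hf₀.supp hf₁.supp δ x
  -- the supports of the two unfolded sums are finite
  have hsupp : ∀ (f : G ℚ → ℂ),
      {c : T5.TwClass (T5.AdelicAut.id ℚ) | ∃ δ : GL (Fin 2) ℚ,
        Quotient.mk (T5.twSetoid (T5.AdelicAut.id ℚ)) δ = c ∧
          ∃ x : G ℚ, T5.twTerm D.R.r (T5.AdelicAut.id ℚ) f δ x ≠ 0}.Finite →
      (Function.support fun c : T5.TwClass (T5.AdelicAut.id ℚ) =>
        ∫ x in Fd (rep c), T5.twTerm D.R.r (T5.AdelicAut.id ℚ) f (rep c) x ∂D.R.μ).Finite := by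
    intro f hfin
    refine hfin.subset ?_
    intro c hc
    rw [Function.mem_support] at hc
    refine ⟨rep c, hrep c, ?_⟩
    by_contra hx
    simp only [not_exists, not_not] at hx
    exact hc (integral_twTerm_eq_zero277 D.R.μ _ hx)
  have e2 : geomSide (T5.AdelicAut.id ℚ) D.R f₀ + geomSide (T5.AdelicAut.id ℚ) D.R f₁
      = ∑ᶠ c : T5.TwClass (T5.AdelicAut.id ℚ),
          ∫ x in Fd (rep c),
            T5.twTerm D.R.r (T5.AdelicAut.id ℚ) (fun y => f₀ y + f₁ y) (rep c) x ∂D.R.μ := by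
    show (∫ x in D.R.F, T5.twKer D.R.r (T5.AdelicAut.id ℚ) f₀ x x ∂D.R.μ)
      + (∫ x in D.R.F, T5.twKer D.R.r (T5.AdelicAut.id ℚ) f₁ x x ∂D.R.μ) = _
    rw [e20, e21, ← finsum_add_distrib (hsupp f₀ hfin0) (hsupp f₁ hfin1)]
    refine finsum_congr fun c => ?_
    rw [← integral_add (hint0 c) (hint1 c)]
    refine integral_congr_ae (Filter.Eventually.of_forall fun x => ?_)
    exact (hadd (rep c) x).symm
  show (∫ x in D.R'.F, T5.twKer D.R'.r D.s φ' x x ∂D.R'.μ)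
    = geomSide (T5.AdelicAut.id ℚ) D.R f₀ + geomSide (T5.AdelicAut.id ℚ) D.R f₁
  rw [e1, e2]
  -- the relation between the classes
  let rel : T5.TwClass D.s → T5.TwClass (T5.AdelicAut.id ℚ) → Prop := fun c' c =>
    T7.IsNormOf D (rep' c') (rep c) ∧ T6.IsEll (rep c)
  -- (R1) the relation is functional
  have R1 : ∀ c' c₁ c₂, rel c' c₁ → rel c' c₂ → c₁ = c₂ := by
    intro c' c₁ c₂ h₁ h₂
    have hc : IsConj (Matrix.GeneralLinearGroup.map (algebraMap ℚ F) (rep c₁))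
        (Matrix.GeneralLinearGroup.map (algebraMap ℚ F) (rep c₂)) := h₁.1.symm.trans h₂.1
    have hc' : IsConj (rep c₁) (rep c₂) :=
      isConj_of_map277 (algebraMap ℚ F) (noRoot_of_isEll277 h₁.2) hc
    rw [← hrep c₁, ← hrep c₂]
    exact Quotient.sound ((twConj_id_iff277 _ _).2 hc')
  -- (R2) the relation is injective
  have R2 : ∀ c₁' c₂' c, rel c₁' c → rel c₂' c → c₁' = c₂' := by
    intro c₁' c₂' c h₁ h₂
    have hc : IsConj (T6.twNorm D.s.σ D.l (rep' c₁')) (T6.twNorm D.s.σ D.l (rep' c₂')) := by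
      rw [← normUpTo_eq_twNorm277, ← normUpTo_eq_twNorm277]
      exact h₁.1.trans h₂.1.symm
    have hreg : T6.IsReg (T6.twNorm D.s.σ D.l (rep' c₁')) := isReg_of_isNormOf277 h₁.2 h₁.1
    obtain ⟨x, hx⟩ := hNI ℚ F D.l (algebraMap ℚ F) D.s.σ hcd (rep' c₁') (rep' c₂') hreg hc
    rw [← hrep' c₁', ← hrep' c₂']
    exact Quotient.sound ⟨x, hx⟩
  -- (R3) a class upstairs with a non-zero term is related to a class downstairs
  have R3 : ∀ c', (∃ x, T5.twTerm D.R'.r D.s φ' (rep' c') x ≠ 0) → ∃ c, rel c' c := by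
    rintro c' ⟨x, hx⟩
    have hreg : T5.IsEllRegOver D.k (D.s.normUpTo D.l (rep' c')) :=
      ellReg_of_twTerm_ne277 hD.frame'.ray hr' hx
    obtain ⟨γ, hγ⟩ := hNC ℚ F D.l (algebraMap ℚ F) D.s.σ hcd (rep' c')
    have hn : T7.IsNormOf D (rep' c') γ := by
      show IsConj (D.s.normUpTo D.l (rep' c')) _
      rw [normUpTo_eq_twNorm277]
      exact hγ
    have hnr : NoRoot277 γ := noRoot_of_isNormOf277 hD hreg hn
    have hq : T5.TwConj (T5.AdelicAut.id ℚ)
        (rep (Quotient.mk (T5.twSetoid (T5.AdelicAut.id ℚ)) γ)) γ :=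
      Quotient.exact (hrep (Quotient.mk (T5.twSetoid (T5.AdelicAut.id ℚ)) γ))
    have hq' : IsConj (rep (Quotient.mk (T5.twSetoid (T5.AdelicAut.id ℚ)) γ)) γ :=
      (twConj_id_iff277 _ _).1 hq
    refine ⟨Quotient.mk (T5.twSetoid (T5.AdelicAut.id ℚ)) γ, ?_, ?_⟩
    · exact hn.trans (isConj_map277 (algebraMap ℚ F) hq'.symm)
    · exact isEll_of_noRoot277 (noRoot_conj277 hq'.symm hnr)
  -- the two families of integrals
  let I' : T5.TwClass D.s → ℂ := fun c' =>
    ∫ x in Fd' (rep' c'), T5.twTerm D.R'.r D.s φ' (rep' c') x ∂D.R'.μ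
  let I : T5.TwClass (T5.AdelicAut.id ℚ) → ℂ := fun c =>
    ∫ x in Fd (rep c),
      T5.twTerm D.R.r (T5.AdelicAut.id ℚ) (fun y => f₀ y + f₁ y) (rep c) x ∂D.R.μ
  show ∑ᶠ c', I' c' = ∑ᶠ c, I c
  let S' : Set (T5.TwClass D.s) := {c' | ∃ c, rel c' c}
  let S : Set (T5.TwClass (T5.AdelicAut.id ℚ)) := {c | ∃ c', rel c' c}
  -- (1) the classes upstairs outside `S'` contribute `0`
  have Z' : ∀ c', c' ∉ S' → I' c' = 0 := by
    intro c' hc'
    apply integral_twTerm_eq_zero277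
    intro x
    by_contra hx
    exact hc' (R3 c' ⟨x, hx⟩)
  -- (2) the classes downstairs outside `S` contribute `0`
  have Z : ∀ c, c ∉ S → I c = 0 := by
    intro c hc
    by_cases hE : T6.IsEll (rep c)
    · apply hm.nonnorm (rep c) hE _ (Fd (rep c)) (hFd _)
      rintro ⟨δ, hδ⟩
      apply hc
      refine ⟨Quotient.mk (T5.twSetoid D.s) δ, ?_, hE⟩
      have hq : T5.TwConj D.s (rep' (Quotient.mk (T5.twSetoid D.s) δ)) δ :=
        Quotient.exact (hrep' (Quotient.mk (T5.twSetoid D.s) δ))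
      exact (isConj_normUpTo277 D.s D.l hD.cyc.pow_eq hq).trans hδ
    · apply integral_twTerm_eq_zero277
      intro x
      by_contra hx
      apply hE
      have hreg : T5.IsEllRegOver ⊤ ((T5.AdelicAut.id ℚ).normUpTo 1 (rep c)) :=
        ellReg_of_twTerm_ne277 hD.frame.ray hr hx
      rw [normUpTo_one277] at hreg
      exact isEll_of_noRoot277 (fun y => noRoot_of_ellRegOver277 ⊤ hreg y (Subfield.mem_top y))
  -- (3) related classes contribute the same
  have E : ∀ c' c, rel c' c → I' c' = I c := by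
    intro c' c h
    exact hm.norm (rep' c') (rep c) h.2 h.1 (Fd' (rep' c')) (Fd (rep c)) (hFd' _) (hFd _)
  -- the bijection
  let e : T5.TwClass D.s → T5.TwClass (T5.AdelicAut.id ℚ) := fun c' =>
    if h : ∃ c, rel c' c then h.choose else Quotient.mk _ 1
  have he : ∀ c' (h : ∃ c, rel c' c), rel c' (e c') := by
    intro c' h
    have : e c' = h.choose := dif_pos h
    rw [this]
    exact h.choose_spec
  have hbij : Set.BijOn e S' S := by
    refine ⟨?_, ?_, ?_⟩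
    · intro c' hc'
      exact ⟨c', he c' hc'⟩
    · intro c₁' h₁ c₂' h₂ h12
      have r₁ := he c₁' h₁
      have r₂ := he c₂' h₂
      rw [h12] at r₁
      exact R2 _ _ _ r₁ r₂
    · rintro c ⟨c', hc'⟩
      exact ⟨c', ⟨c, hc'⟩, R1 c' _ _ (he c' ⟨c, hc'⟩) hc'⟩
  have s1 : ∑ᶠ c', I' c' = ∑ᶠ c' ∈ S', I' c' := by
    rw [← finsum_mem_univ]
    apply finsum_mem_inter_support_eq
    ext c'
    simp only [Set.mem_inter_iff, Set.mem_univ, true_and, Function.mem_support]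
    constructor
    · intro h
      refine ⟨?_, h⟩
      by_contra hc'
      exact h (Z' c' hc')
    · exact fun h => h.2
  have s2 : ∑ᶠ c, I c = ∑ᶠ c ∈ S, I c := by
    rw [← finsum_mem_univ]
    apply finsum_mem_inter_support_eq
    ext c
    simp only [Set.mem_inter_iff, Set.mem_univ, true_and, Function.mem_support]
    constructor
    · intro h
      refine ⟨?_, h⟩
      by_contra hc
      exact h (Z c hc)
    · exact fun h => h.2
  rw [s1, s2]
  exact finsum_mem_eq_of_bijOn e hbij (fun c' hc' => E c' (e c') (he c' hc'))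

/-- **The spectral identity for matched triples** from the three towers of T5 and the two class
leaves of T6 (`GeomQC` is closed). -/
theorem specIdQC_of_towers826 (F : Type) [Field F] [NumberField F]
    (hT' : ∀ D : CompData ℚ F, IsCompData D → T5.Tower D.s D.l D.k D.𝔑 T5.trivType)
    (hT0 : ∀ 𝔫 : Ideal (𝓞 ℚ), 𝔫 ≠ ⊥ → T5.Tower (T5.AdelicAut.id ℚ) 1 ⊤ 𝔫 T5.trivType)
    (hT1 : ∀ 𝔫 : Ideal (𝓞 ℚ), 𝔫 ≠ ⊥ → T5.Tower (T5.AdelicAut.id ℚ) 1 ⊤ 𝔫 wtOne)
    (hN : T6.NormClassC) (hI : T6.NormInjC) : SpecIdQC F :=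
  specIdQC_of hT' hT0 hT1 hN hI (geomQC826 F)

end Fermat.Agent.LT.T7.L2Q
end
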