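import Mathlib
import Fermat.Agent.LT.T7.H826.GeomQ
import Fermat.Agent.LT.T7.H231.Level2Closed

/-!
# Row LT, tower T7, quadratic step `F/ℚ`: `SpecIdQC` CLOSED (helper826)

OFF-MAIN.  INTEGRATION (pattern of `T7/H231/Level2Closed.lean`, helper231): byte-identical
copies of the owners' files in ONE closure (bytes of record: origin/helper17).

| item | state |
|---|---|
| `L2Q.GeomQC F` (class bijection over `ℚ`, two types) | CLOSED: `geomQC826` (`GeomQ.lean`) |
| `L2Q.SpecIdQC F` (spectral identity for matched triples) | CLOSED HERE: `specIdQC_closed826` = `specIdQC_of_towers826` + the closed tower T5 / T4 (`T5.tower_closed`, helper32: every number field, every level `≠ 0`, every `K_∞`-type, so also `ℚ` with the types `1` and `wtOne`) + `T6.NormClassC` (helper981) + `T6.NormInjC` (helper848) |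

So the quadratic step is `TraceWordsQRegP P F ⇐ Supply + SpecUp (core) + SpecDown`:
`traceWordsQRegP_of_level2Q826` (plain nodes of `Level2Q.lean`).
-/

set_option autoImplicit false

open IsDedekindDomain NumberField

noncomputable section

namespace Fermat.Agent.LT.T7.L2Q

open Fermat.Agent.LT Fermat.Agent.LT.T7

/-- **The spectral identity for matched triples over `ℚ` is CLOSED** (unconditional). -/
theorem specIdQC_closed826 (F : Type) [Field F] [NumberField F] : SpecIdQC F :=
  specIdQC_of_towers826 F
    (fun D hD => Fermat.Agent.LT.T7.H32.tower_up32 D hD)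
    (fun 𝔫 h𝔫 => T4.tower_closed ℚ 𝔫 T5.trivType h𝔫)
    (fun 𝔫 h𝔫 => T4.tower_closed ℚ 𝔫 wtOne h𝔫)
    Fermat.Agent.LT.T6.H981.normClassC_h981 Fermat.Agent.LT.T6.H848.normInjC848

/-- The node `TraceWordsQRegP P F` from the three nodes of level 2 over `ℚ` (plain forms). -/
theorem traceWordsQRegP_of_level2Q826 (P : EKCond) (F : Type) [Field F] [NumberField F]
    (hS : SupplyQC P F) (hU : SpecUpQC F) (hD : SpecDownQC F) : TraceWordsQRegP P F :=
  traceWordsQRegP_of hS hU hD (specIdQC_closed826 F)

end Fermat.Agent.LT.T7.L2Q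

end
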