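import Mathlib
import Fermat.Agent.LT.T7.H826.Level2Q

/-!
# Row LT, tower T7, row 2149 (helper826): leaf `L2Q.WtOneKTypeC` -- OFF-MAIN

`wtOneKTypeC826 : Fermat.Agent.LT.T7.L2Q.WtOneKTypeC`, i.e. `T5.IsKType L2Q.wtOne`, VERBATIM the
Prop of `LT/T7/H826/Level2Q.lean`: the weight-one character `k ↦ k₀₀ + i k₀₁` of `SO(2)` at the
real place of `ℚ` is a `K_∞`-type in the sense of `T5/Spec.lean`.

* the components at the real place are real (`extensionEmbeddingOfIsReal_apply`);
* a real matrix `M` with `M Mᴴ = 1`, `det M = 1` is `!![a, b; -b, a]`, `a² + b² = 1`;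
* `infComp` is multiplicative and continuous.
-/

set_option autoImplicit false

open AutomorphicForm IsDedekindDomain NumberField MeasureTheory
open scoped ComplexConjugate

noncomputable section

namespace Fermat.Agent.LT.T7.L2Q

open Fermat.Agent.LT.H556 Fermat.Agent.LT.H556.A0

theorem infComp_mul826 {K : Type} [Field K] [NumberField K] (w : InfinitePlace K) (g h : G K) :
    infComp w (g * h) = infComp w g * infComp w h := by
  rw [T5.infComp_eq_map, T5.infComp_eq_map, T5.infComp_eq_map, Units.val_mul, Matrix.map_mul]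

theorem infComp_real826 (k : G ℚ) (i j : Fin 2) :
    ∃ a : ℝ, infComp Rat.infinitePlace k i j = ((a : ℝ) : ℂ) :=
  ⟨InfinitePlace.Completion.extensionEmbeddingOfIsReal Rat.isReal_infinitePlace _,
    (InfinitePlace.Completion.extensionEmbeddingOfIsReal_apply Rat.isReal_infinitePlace _).symm⟩

/-- A real matrix in `SO(2)` is `!![a, b; -b, a]` with `a² + b² = 1`. -/
theorem so2_form826 {M : Matrix (Fin 2) (Fin 2) ℂ} (hreal : ∀ i j, ∃ a : ℝ, M i j = ((a : ℝ) : ℂ))
    (h1 : M * M.conjTranspose = 1) (hdet : M.det = 1) :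
    ∃ a b : ℝ, a ^ 2 + b ^ 2 = 1 ∧ M 0 0 = (a : ℂ) ∧ M 0 1 = (b : ℂ) ∧ M 1 0 = -(b : ℂ) ∧
      M 1 1 = (a : ℂ) := by
  obtain ⟨a, ha⟩ := hreal 0 0
  obtain ⟨b, hb⟩ := hreal 0 1
  obtain ⟨c, hc⟩ := hreal 1 0
  obtain ⟨d, hd⟩ := hreal 1 1
  have e00 := congrFun (congrFun h1 0) 0
  have e01 := congrFun (congrFun h1 0) 1
  rw [Matrix.det_fin_two] at hdet
  simp only [Matrix.mul_apply, Fin.sum_univ_two, Matrix.conjTranspose_apply, ha, hb, hc, hd,
    Matrix.one_apply_eq, Matrix.one_apply_ne, ne_eq, zero_ne_one, not_false_eq_true,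
    Fin.isValue, RCLike.star_def, Complex.conj_ofReal] at e00 e01
  rw [ha, hb, hc, hd] at hdet
  have r00 : a * a + b * b = 1 := by exact_mod_cast e00
  have r01 : a * c + b * d = 0 := by exact_mod_cast e01
  have rdet : a * d - b * c = 1 := by exact_mod_cast hdet
  have hda : d = a := by
    linear_combination (-d) * r00 + a * rdet + b * r01
  have hcb : c = -b := by
    linear_combination (-c) * r00 + a * r01 - b * rdet
  refine ⟨a, b, by nlinarith [r00], ha, hb, ?_, ?_⟩
  · rw [hc, hcb]
    push_cast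
    ring
  · rw [hd, hda]

theorem wtOne_form826 {k : G ℚ} (hk : IsArchCompact Rat.infinitePlace k) :
    ∃ a b : ℝ, a ^ 2 + b ^ 2 = 1 ∧ infComp Rat.infinitePlace k 0 0 = (a : ℂ) ∧
      infComp Rat.infinitePlace k 0 1 = (b : ℂ) ∧ infComp Rat.infinitePlace k 1 0 = -(b : ℂ) ∧
      infComp Rat.infinitePlace k 1 1 = (a : ℂ) :=
  so2_form826 (infComp_real826 k) hk.2.1 (hk.2.2 Rat.isReal_infinitePlace)

theorem continuous_infEntry826 {K : Type} [Field K] [NumberField K] (w : InfinitePlace K)
    (i j : Fin 2) : Continuous fun k : G K => infComp w k i j := by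
  have h1 : Continuous fun k : G K => (k : Matrix (Fin 2) (Fin 2) (Adl K)) i j :=
    (Units.continuous_val).matrix_elem i j
  have h2 : Continuous fun x : Adl K => x.1 w :=
    (continuous_apply w).comp continuous_fst
  exact (InfinitePlace.Completion.isometry_extensionEmbedding w).continuous.comp
    (h2.comp h1)

/-- **LEAF `WtOneKTypeC`.** -/
theorem wtOneKTypeC826 : WtOneKTypeC where
  norm_one := by
    intro w k hk
    rw [Subsingleton.elim w Rat.infinitePlace] at hk
    obtain ⟨a, b, hab, h00, h01, -, -⟩ := wtOne_form826 hk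
    show ‖infComp Rat.infinitePlace k 0 0 + Complex.I * infComp Rat.infinitePlace k 0 1‖ = 1
    rw [h00, h01]
    have h : ((a : ℂ) + Complex.I * (b : ℂ)) = ((⟨a, b⟩ : ℂ)) := by
      apply Complex.ext <;> simp
    rw [h, Complex.norm_def, Complex.normSq_mk, Real.sqrt_eq_one]
    nlinarith [hab]
  mul := by
    intro w k k' hk hk'
    rw [Subsingleton.elim w Rat.infinitePlace] at hk hk'
    obtain ⟨a, b, -, h00, h01, h10, h11⟩ := wtOne_form826 hk
    obtain ⟨a', b', -, h00', h01', h10', h11'⟩ := wtOne_form826 hk'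
    show infComp Rat.infinitePlace (k * k') 0 0
        + Complex.I * infComp Rat.infinitePlace (k * k') 0 1
      = (infComp Rat.infinitePlace k 0 0 + Complex.I * infComp Rat.infinitePlace k 0 1)
        * (infComp Rat.infinitePlace k' 0 0 + Complex.I * infComp Rat.infinitePlace k' 0 1)
    rw [infComp_mul826, Matrix.mul_apply, Matrix.mul_apply, Fin.sum_univ_two, Fin.sum_univ_two,
      h00, h01, h00', h01', h10', h11']
    linear_combination (-(b : ℂ) * (b' : ℂ)) * Complex.I_sq
  cont := by
    intro w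
    refine Continuous.continuousOn ?_
    show Continuous fun k : G ℚ =>
      infComp Rat.infinitePlace k 0 0 + Complex.I * infComp Rat.infinitePlace k 0 1
    exact (continuous_infEntry826 _ 0 0).add
      (continuous_const.mul (continuous_infEntry826 _ 0 1))

end Fermat.Agent.LT.T7.L2Q

end
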